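import Mathlib.NumberTheory.WellApproximable
import Mathlib.Tactic

/-!
# The sets of Duffin and Schaeffer

`E q δ` is the set of points of the circle within `δ q` of a reduced fraction of denominator `q`.
With `δ q = ψ q / q` one has `μ (E q) = 2 φ q ψ q / q` for `ψ q ≤ 1 / 2` and
`μ (E q ∩ E r) ≤ 8 ψ q ψ r` for `q ≠ r`.
-/

set_option autoImplicit false

noncomputable section

namespace FA.Khintchine

open MeasureTheory Finset Metric

/-- The point `a / q` of the circle. -/
def frac (q a : ℕ) : UnitAddCircle := (((a : ℝ) / q : ℝ) : UnitAddCircle)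

/-- The reduced numerators. -/
def numer (q : ℕ) : Finset ℕ := (range q).filter fun a => Nat.Coprime a q

/-- The reduced fractions of denominator `q`, thickened. -/
def dsSet (ψ : ℕ → ℝ) (q : ℕ) : Set UnitAddCircle := ⋃ a ∈ numer q, ball (frac q a) (ψ q / q)

theorem measurableSet_dsSet (ψ : ℕ → ℝ) (q : ℕ) : MeasurableSet (dsSet ψ q) :=
  Finset.measurableSet_biUnion _ fun _ _ => isOpen_ball.measurableSet

theorem card_numer (q : ℕ) : #(numer q) = q.totient := by
  rw [Nat.totient_eq_card_coprime, numer]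
  congr 1
  exact filter_congr fun a _ => Nat.coprime_comm

theorem measureReal_ball (x : UnitAddCircle) (ε : ℝ) :
    (volume : Measure UnitAddCircle).real (ball x ε) = max 0 (min 1 (2 * ε)) := by
  rw [Measure.real, ← measure_congr (AddCircle.closedBall_ae_eq_ball (x := x) (ε := ε)),
    AddCircle.volume_closedBall, ENNReal.toReal_ofReal', max_comm]

theorem norm_coe_le_abs (x : ℝ) : ‖(x : UnitAddCircle)‖ ≤ |x| := by
  rw [AddCircle.norm_eq]
  simpa using round_le x 0

/-- The centres are `1 / q` apart. -/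
theorem frac_separated {q a b : ℕ} (ha : a < q) (hb : b < q) (h : a ≠ b) :
    1 / (q : ℝ) ≤ ‖frac q a - frac q b‖ := by
  have hq : (0 : ℝ) < q := by exact_mod_cast (Nat.lt_of_le_of_lt (Nat.zero_le a) ha)
  rw [frac, frac, ← AddCircle.coe_sub, AddCircle.norm_eq]
  simp only [one_mul, mul_one, inv_one]
  obtain ⟨z, hz⟩ : ∃ z : ℤ, z = round ((a : ℝ) / q - (b : ℝ) / q) := ⟨_, rfl⟩
  rw [← hz, show (a : ℝ) / q - (b : ℝ) / q - z = (((a : ℤ) - b - z * q : ℤ) : ℝ) / q by
    push_cast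
    field_simp, abs_div, abs_of_pos hq]
  refine div_le_div_of_nonneg_right ?_ hq.le
  have hne : (a : ℤ) - b - z * q ≠ 0 := by
    intro h0
    rcases lt_trichotomy z 0 with hz0 | hz0 | hz0
    · nlinarith
    · subst hz0; omega
    · nlinarith
  rw [← Int.cast_abs]
  exact_mod_cast Int.one_le_abs hne

/-- **The measure of the set.** -/
theorem measureReal_dsSet {ψ : ℕ → ℝ} {q : ℕ} (hq : 0 < q) (h0 : 0 ≤ ψ q) (h1 : ψ q ≤ 1 / 2) :
    (volume : Measure UnitAddCircle).real (dsSet ψ q) = 2 * q.totient * ψ q / q := by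
  have hq' : (0 : ℝ) < q := by exact_mod_cast hq
  rw [dsSet, measureReal_biUnion_finset ?_ fun _ _ => isOpen_ball.measurableSet]
  · rw [sum_congr rfl fun a _ => measureReal_ball (frac q a) (ψ q / q), sum_const, card_numer,
      nsmul_eq_mul, max_eq_right (le_min zero_le_one (by positivity)), min_eq_right]
    · ring
    · rw [← mul_div_assoc, div_le_one hq']
      have : (1 : ℝ) ≤ q := by exact_mod_cast hq
      linarith
  · intro a ha b hb hab
    simp only [coe_filter, numer, mem_range, Set.mem_ofPred_eq] at ha hb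
    refine ball_disjoint_ball ?_
    rw [dist_eq_norm]
    refine le_trans ?_ (frac_separated ha.1 hb.1 hab)
    rw [← add_div]
    exact div_le_div_of_nonneg_right (by linarith) hq'.le

theorem measureReal_dsSet_le {ψ : ℕ → ℝ} {q : ℕ} (hq : 0 < q) (h0 : 0 ≤ ψ q) :
    (volume : Measure UnitAddCircle).real (dsSet ψ q) ≤ 2 * ψ q := by
  have hq' : (0 : ℝ) < q := by exact_mod_cast hq
  refine (measureReal_biUnion_finset_le _ _).trans ?_
  calc ∑ a ∈ numer q, (volume : Measure UnitAddCircle).real (ball (frac q a) (ψ q / q))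
      ≤ ∑ _a ∈ numer q, 2 * (ψ q / q) := by
        refine sum_le_sum fun a _ => ?_
        rw [measureReal_ball]
        exact max_le (by positivity) (min_le_right _ _)
    _ ≤ q * (2 * (ψ q / q)) := by
        rw [sum_const, card_numer, nsmul_eq_mul]
        exact mul_le_mul_of_nonneg_right (Nat.cast_le.2 q.totient_le) (by positivity)
    _ = _ := by field_simp

/-- The pairs of neighbouring fractions. -/
def nearPairs (q r : ℕ) (Δ : ℝ) : Finset (ℕ × ℕ) :=
  (numer q ×ˢ numer r).filter fun ab => ‖frac q ab.1 - frac r ab.2‖ < Δ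

/-- **The gcd count.** -/
theorem card_nearPairs_le {q r : ℕ} (hq : 0 < q) (hr : 0 < r) (hqr : q ≠ r) {Δ : ℝ} (hΔ : 0 ≤ Δ) :
    (#(nearPairs q r Δ) : ℝ) ≤ 2 * (q * r * Δ) := by
  obtain ⟨g, hg⟩ : ∃ g, g = Nat.gcd q r := ⟨_, rfl⟩
  have hg0 : 0 < g := hg ▸ Nat.gcd_pos_of_pos_left r hq
  have hq' : (0 : ℝ) < q := by exact_mod_cast hq
  have hr' : (0 : ℝ) < r := by exact_mod_cast hr
  have hgr : (0 : ℝ) < g := by exact_mod_cast hg0
  obtain ⟨f, hf⟩ : ∃ f : ℕ × ℕ → ℤ, f = fun ab => (ab.1 : ℤ) * r - ab.2 * q -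
      round ((ab.1 : ℝ) / q - (ab.2 : ℝ) / r) * (q * r) := ⟨_, rfl⟩
  have hfin : ∀ ab ∈ nearPairs q r Δ, |((f ab : ℤ) : ℝ)| < q * r * Δ ∧ f ab ≠ 0 := by
    rintro ⟨a, b⟩ hab
    simp only [nearPairs, numer, mem_filter, mem_product, mem_range] at hab
    obtain ⟨⟨⟨ha, hac⟩, hb, hbc⟩, hlt⟩ := hab
    obtain ⟨z, hz⟩ : ∃ z : ℤ, z = round ((a : ℝ) / q - (b : ℝ) / r) := ⟨_, rfl⟩
    simp only [hf, ← hz]
    rw [frac, frac, ← AddCircle.coe_sub, AddCircle.norm_eq] at hlt
    simp only [one_mul, mul_one, inv_one, ← hz] at hlt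
    refine ⟨?_, fun h0 => ?_⟩
    · have e : (((a : ℤ) * r - b * q - z * (q * r) : ℤ) : ℝ) =
          ((a : ℝ) / q - (b : ℝ) / r - z) * (q * r) := by
        push_cast
        field_simp
      rw [e, abs_mul, abs_of_pos (mul_pos hq' hr'), mul_comm ((q : ℝ) * r) Δ]
      exact mul_lt_mul_of_pos_right hlt (mul_pos hq' hr')
    · have d1 : (q : ℤ) ∣ (a : ℤ) * r := ⟨b + z * r, by linarith⟩
      have d2 : (r : ℤ) ∣ (b : ℤ) * q := ⟨a - z * q, by linarith⟩
      rw [← Nat.cast_mul, Int.natCast_dvd_natCast] at d1 d2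
      exact hqr (Nat.dvd_antisymm ((Nat.Coprime.symm hac).dvd_of_dvd_mul_left d1)
        ((Nat.Coprime.symm hbc).dvd_of_dvd_mul_left d2))
  obtain ⟨M, hM⟩ : ∃ M : ℕ, M = ⌊(q : ℝ) * r * Δ / g⌋₊ := ⟨_, rfl⟩
  have himg : #((nearPairs q r Δ).image f) ≤ 2 * M := by
    refine (card_le_card (t := ((Icc (-(M : ℤ)) M).erase 0).image fun k => (g : ℤ) * k)
      fun n hn => ?_).trans (card_image_le.trans ?_)
    · obtain ⟨ab, hab, rfl⟩ := mem_image.1 hn
      obtain ⟨h1, h2⟩ := hfin ab hab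
      obtain ⟨k, hk⟩ : (g : ℤ) ∣ f ab := by
        rw [hf, hg]
        have e1 : ((Nat.gcd q r : ℕ) : ℤ) ∣ (q : ℤ) :=
          Int.natCast_dvd_natCast.2 (Nat.gcd_dvd_left q r)
        have e2 : ((Nat.gcd q r : ℕ) : ℤ) ∣ (r : ℤ) :=
          Int.natCast_dvd_natCast.2 (Nat.gcd_dvd_right q r)
        exact dvd_sub (dvd_sub (dvd_mul_of_dvd_right e2 _) (dvd_mul_of_dvd_right e1 _))
          (dvd_mul_of_dvd_right (dvd_mul_of_dvd_left e1 _) _)
      refine mem_image.2 ⟨k, mem_erase.2 ⟨fun h => h2 (by rw [hk, h, mul_zero]), ?_⟩, hk.symm⟩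
      rw [mem_Icc, ← abs_le]
      have hk' : |(k : ℝ)| ≤ (q : ℝ) * r * Δ / g := by
        rw [le_div_iff₀ hgr, mul_comm, ← abs_of_pos hgr, ← abs_mul]
        refine le_of_eq_of_le ?_ h1.le
        rw [hk]
        push_cast
        rfl
      have hnat : k.natAbs ≤ M := by
        refine hM ▸ Nat.le_floor ?_
        rw [Nat.cast_natAbs, Int.cast_abs]
        exact hk'
      rw [Int.abs_eq_natAbs]
      exact_mod_cast hnat
    · rw [card_erase_of_mem (mem_Icc.2 ⟨by omega, by omega⟩), Int.card_Icc]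
      omega
  have hfib : ∀ n ∈ (nearPairs q r Δ).image f,
      #((nearPairs q r Δ).filter fun ab => f ab = n) ≤ g := by
    intro n _
    obtain ⟨Q, hQ⟩ : ∃ Q, Q = q / g := ⟨_, rfl⟩
    have hQq : Q * g = q := hQ ▸ Nat.div_mul_cancel (hg ▸ Nat.gcd_dvd_left q r)
    have hQ0 : 0 < Q := Nat.pos_of_ne_zero fun h => hq.ne' (by rw [← hQq, h, zero_mul])
    refine (card_le_card_of_injOn (t := range g) (fun ab => ab.1 / Q) ?_ ?_).trans
      (card_range g).le
    · intro ab hab
      simp only [mem_coe, nearPairs, numer, mem_filter, mem_product, mem_range] at hab ⊢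
      rw [Nat.div_lt_iff_lt_mul hQ0, mul_comm, hQq]
      exact hab.1.1.1.1
    · rintro ⟨a, b⟩ hab ⟨a', b'⟩ hab' h
      simp only [mem_coe, nearPairs, numer, mem_filter, mem_product, mem_range] at hab hab'
      simp only at h
      obtain ⟨⟨⟨⟨ha, -⟩, hb, -⟩, -⟩, e⟩ := hab
      obtain ⟨⟨⟨⟨ha', -⟩, hb', -⟩, -⟩, e'⟩ := hab'
      rw [hf] at e e'
      simp only at e e'
      obtain ⟨z, hz⟩ : ∃ z : ℤ, z = round ((a : ℝ) / q - (b : ℝ) / r) := ⟨_, rfl⟩
      obtain ⟨z', hz'⟩ : ∃ z : ℤ, z = round ((a' : ℝ) / q - (b' : ℝ) / r) := ⟨_, rfl⟩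
      rw [← hz] at e
      rw [← hz'] at e'
      have hm : a * r ≡ a' * r [MOD q] := by
        rw [Nat.modEq_iff_dvd]
        push_cast
        exact ⟨b' - b + (z' - z) * r, by linarith⟩
      have hm' : a ≡ a' [MOD Q] := by
        have := Nat.ModEq.cancel_right_div_gcd hq hm
        rwa [← hg, ← hQ] at this
      have haa : a = a' := by
        have := Nat.div_add_mod a Q
        have := Nat.div_add_mod a' Q
        rw [h] at *
        rw [Nat.ModEq] at hm'
        omega
      subst haa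
      have hb2 : (r : ℤ) ∣ (b' : ℤ) - b := by
        refine ⟨z - z', ?_⟩
        have hq0 : (q : ℤ) ≠ 0 := by exact_mod_cast hq.ne'
        exact mul_right_cancel₀ hq0 (by linarith)
      have : b ≡ b' [MOD r] := Nat.modEq_iff_dvd.2 hb2
      exact Prod.ext rfl (this.eq_of_lt_of_lt hb hb')
  have h := card_le_mul_card_image (nearPairs q r Δ) g hfib
  calc (#(nearPairs q r Δ) : ℝ) ≤ ((g * (2 * M) : ℕ) : ℝ) :=
        Nat.cast_le.2 (h.trans (Nat.mul_le_mul_left g himg))
    _ ≤ (g : ℝ) * (2 * ((q : ℝ) * r * Δ / g)) := by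
        push_cast
        exact mul_le_mul_of_nonneg_left
          (mul_le_mul_of_nonneg_left (hM ▸ Nat.floor_le (by positivity)) two_pos.le) hgr.le
    _ = _ := by field_simp

/-- **The overlap.** -/
theorem measureReal_dsSet_inter_le {ψ : ℕ → ℝ} {q r : ℕ} (hq : 0 < q) (hr : 0 < r) (hqr : q ≠ r)
    (hψq : 0 ≤ ψ q) (hψr : 0 ≤ ψ r) :
    (volume : Measure UnitAddCircle).real (dsSet ψ q ∩ dsSet ψ r) ≤ 8 * (ψ q * ψ r) := by
  have hq' : (0 : ℝ) < q := by exact_mod_cast hq
  have hr' : (0 : ℝ) < r := by exact_mod_cast hr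
  obtain ⟨u, hu⟩ : ∃ u, u = ψ q / q := ⟨_, rfl⟩
  obtain ⟨v, hv⟩ : ∃ v, v = ψ r / r := ⟨_, rfl⟩
  have hu0 : 0 ≤ u := hu ▸ by positivity
  have hv0 : 0 ≤ v := hv ▸ by positivity
  have hsub : dsSet ψ q ∩ dsSet ψ r ⊆
      ⋃ ab ∈ nearPairs q r (u + v), ball (frac q ab.1) u ∩ ball (frac r ab.2) v := by
    rintro x ⟨hxq, hxr⟩
    simp only [dsSet, Set.mem_iUnion, ← hu, ← hv] at hxq hxr
    obtain ⟨a, ha, hxa⟩ := hxq
    obtain ⟨b, hb, hxb⟩ := hxr
    refine Set.mem_biUnion (x := (a, b)) (mem_filter.2 ⟨mem_product.2 ⟨ha, hb⟩, ?_⟩) ⟨hxa, hxb⟩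
    rw [← dist_eq_norm]
    exact (dist_triangle_left _ _ x).trans_lt (add_lt_add (mem_ball.1 hxa) (mem_ball.1 hxb))
  refine (measureReal_mono hsub (measure_ne_top _ _)).trans
    ((measureReal_biUnion_finset_le _ _).trans ?_)
  calc ∑ ab ∈ nearPairs q r (u + v),
        (volume : Measure UnitAddCircle).real (ball (frac q ab.1) u ∩ ball (frac r ab.2) v)
      ≤ ∑ _ab ∈ nearPairs q r (u + v), 2 * min u v := by
        refine sum_le_sum fun ab _ => ?_
        rcases le_total u v with h | h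
        · rw [min_eq_left h]
          refine (measureReal_mono Set.inter_subset_left).trans ?_
          rw [measureReal_ball]
          exact max_le (by positivity) (min_le_right _ _)
        · rw [min_eq_right h]
          refine (measureReal_mono Set.inter_subset_right).trans ?_
          rw [measureReal_ball]
          exact max_le (by positivity) (min_le_right _ _)
    _ ≤ 2 * (q * r * (u + v)) * (2 * min u v) := by
        rw [sum_const, nsmul_eq_mul]
        exact mul_le_mul_of_nonneg_right (card_nearPairs_le hq hr hqr (by positivity))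
          (mul_nonneg two_pos.le (le_min hu0 hv0))
    _ ≤ 8 * (q * r) * (u * v) := by
        rw [← min_mul_max u v]
        have hmax : u + v ≤ 2 * max u v := by
          linarith [le_max_left u v, le_max_right u v]
        have := mul_le_mul_of_nonneg_left hmax
          (mul_nonneg (mul_nonneg hq'.le hr'.le) (le_min hu0 hv0))
        linarith
    _ = _ := by
        rw [hu, hv]
        field_simp

end FA.Khintchine
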