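import Fermat.Agent.Khintchine.SecondMoment
import Fermat.Agent.Khintchine.Overlap
import Mathlib.Data.Nat.Totient

/-!
# The theorems of Khintchine and of Duffin and Schaeffer

The divergence half follows from the bound for the overlaps by the second moment and the law of
Gallagher, the convergence half from the lemma of Borel and Cantelli.
-/

set_option autoImplicit false

noncomputable section

namespace FA.Khintchine

open MeasureTheory Finset Metric Filter
open scoped Topology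

theorem dsSet_eq_approxAddOrderOf {ψ : ℕ → ℝ} {q : ℕ} (hq : 0 < q) :
    dsSet ψ q = approxAddOrderOf UnitAddCircle q (ψ q / q) := by
  ext x
  rw [UnitAddCircle.mem_approxAddOrderOf_iff hq]
  simp only [dsSet, numer, Set.mem_iUnion, mem_filter, mem_range, mem_ball, dist_eq_norm, frac,
    exists_prop]
  exact ⟨fun ⟨a, ⟨h1, h2⟩, h3⟩ => ⟨a, h1, h2, h3⟩, fun ⟨a, h1, h2, h3⟩ => ⟨a, ⟨h1, h2⟩, h3⟩⟩

/-- A property of almost every point of the circle holds almost everywhere on the line. -/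
theorem ae_real_of_ae_circle {P : UnitAddCircle → Prop}
    (h : ∀ᵐ y ∂(volume : Measure UnitAddCircle), P y) : ∀ᵐ x : ℝ, P (x : UnitAddCircle) := by
  have h1 : ∀ n : ℤ, ∀ᵐ x : ℝ, x ∈ Set.Ioc (n : ℝ) (n + 1) → P (x : UnitAddCircle) := fun n => by
    rw [← ae_restrict_iff' measurableSet_Ioc]
    exact (UnitAddCircle.measurePreserving_mk (n : ℝ)).quasiMeasurePreserving.ae h
  filter_upwards [ae_all_iff.2 h1] with x hx
  refine hx (⌈x⌉ - 1) ⟨?_, ?_⟩
  · push_cast
    linarith [Int.ceil_lt_add_one x]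
  · push_cast
    linarith [Int.le_ceil x]

/-- **The theorem of Duffin and Schaeffer on the circle.** -/
theorem ae_mem_addWellApproximable {ψ : ℕ → ℝ} (h0 : ∀ q, 0 ≤ ψ q) (h1 : ∀ q, ψ q ≤ 1 / 2)
    (hdiv : Tendsto (fun N => ∑ q ∈ range N, ψ q) atTop atTop) {κ : ℝ} (hκ : 0 < κ)
    (hratio : ∃ᶠ N : ℕ in atTop,
      κ * ∑ q ∈ range N, ψ q ≤ ∑ q ∈ range N, (q.totient : ℝ) * ψ q / q) :
    ∀ᵐ x ∂(volume : Measure UnitAddCircle),
      x ∈ addWellApproximable UnitAddCircle fun q => ψ q / q := by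
  have hδ : Tendsto (fun q => ψ q / (q : ℝ)) atTop (𝓝 0) :=
    squeeze_zero (fun q => div_nonneg (h0 q) (Nat.cast_nonneg q))
      (fun q => div_le_div_of_nonneg_right (h1 q) (Nat.cast_nonneg q))
      (tendsto_const_div_atTop_nhds_zero_nat _)
  refine (AddCircle.addWellApproximable_ae_empty_or_univ _ hδ).resolve_left fun hnull => ?_
  have hlow : ENNReal.ofReal (κ ^ 2 / 40) ≤
      (volume : Measure UnitAddCircle) (limsup (dsSet ψ) atTop) := by
    refine ofReal_le_measure_limsup (measurableSet_dsSet ψ) fun n₀ => ?_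
    obtain ⟨N, ⟨hN, hn0⟩, hbig⟩ :=
      ((hratio.and_eventually (eventually_ge_atTop (n₀ + 1))).and_eventually
      (hdiv.eventually_ge_atTop (max 1 (4 / κ * ∑ q ∈ range (n₀ + 1), ψ q)))).exists
    refine ⟨Ico (n₀ + 1) N, fun q hq => le_trans (Nat.le_succ _) (mem_Ico.1 hq).1, ?_⟩
    obtain ⟨S, hS⟩ : ∃ S, S = ∑ q ∈ range N, ψ q := ⟨_, rfl⟩
    obtain ⟨S0, hS0⟩ : ∃ S0, S0 = ∑ q ∈ range (n₀ + 1), ψ q := ⟨_, rfl⟩
    rw [← hS, ← hS0, max_le_iff] at hbig
    rw [← hS] at hN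
    have hS00 : 0 ≤ S0 := hS0 ▸ sum_nonneg fun q _ => h0 q
    obtain ⟨J, hJ⟩ : ∃ J, J = Ico (n₀ + 1) N := ⟨_, rfl⟩
    have hJpos : ∀ q ∈ J, 0 < q := fun q hq => by rw [hJ, mem_Ico] at hq; omega
    rw [← hJ]
    have hfirst : κ * S ≤ ∑ q ∈ J, (volume : Measure UnitAddCircle).real (dsSet ψ q) := by
      rw [sum_congr rfl fun q hq => measureReal_dsSet (hJpos q hq) (h0 q) (h1 q)]
      have hsplit := sum_range_add_sum_Ico (fun q => (q.totient : ℝ) * ψ q / q) hn0
      have hsmall : ∑ q ∈ range (n₀ + 1), (q.totient : ℝ) * ψ q / q ≤ S0 := by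
        refine hS0 ▸ sum_le_sum fun q _ => ?_
        rcases Nat.eq_zero_or_pos q with rfl | hq
        · simpa using h0 0
        rw [div_le_iff₀ (by exact_mod_cast hq), mul_comm (ψ q)]
        exact mul_le_mul_of_nonneg_right (Nat.cast_le.2 q.totient_le) (h0 q)
      have he : ∑ q ∈ J, 2 * (q.totient : ℝ) * ψ q / q =
          2 * ∑ q ∈ J, (q.totient : ℝ) * ψ q / q := by
        rw [mul_sum]
        exact sum_congr rfl fun q _ => by ring
      have hcut : 4 * S0 ≤ κ * S := by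
        have := hbig.2
        rw [div_mul_eq_mul_div, div_le_iff₀ hκ] at this
        linarith
      rw [he, hJ]
      linarith
    have hsecond : ∑ q ∈ J, ∑ r ∈ J, (volume : Measure UnitAddCircle).real
        (dsSet ψ q ∩ dsSet ψ r) ≤ 10 * S ^ 2 := by
      have hJS : ∑ q ∈ J, ψ q ≤ S := hS ▸ sum_le_sum_of_subset_of_nonneg
        (fun q hq => by rw [hJ, mem_Ico] at hq; exact mem_range.2 hq.2) fun q _ _ => h0 q
      have hJ0 : 0 ≤ ∑ q ∈ J, ψ q := sum_nonneg fun q _ => h0 q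
      calc ∑ q ∈ J, ∑ r ∈ J, (volume : Measure UnitAddCircle).real (dsSet ψ q ∩ dsSet ψ r)
          ≤ ∑ q ∈ J, ∑ r ∈ J, ((if q = r then 2 * ψ q else 0) + 8 * (ψ q * ψ r)) := by
            refine sum_le_sum fun q hq => sum_le_sum fun r hr => ?_
            have h8 : 0 ≤ 8 * (ψ q * ψ r) := mul_nonneg (by norm_num) (mul_nonneg (h0 q) (h0 r))
            split_ifs with h
            · rw [← h, Set.inter_self]
              subst h
              linarith [measureReal_dsSet_le (hJpos q hq) (h0 q)]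
            · rw [zero_add]
              exact measureReal_dsSet_inter_le (hJpos q hq) (hJpos r hr) h (h0 q) (h0 r)
        _ = 2 * ∑ q ∈ J, ψ q + 8 * ((∑ q ∈ J, ψ q) * ∑ r ∈ J, ψ r) := by
            rw [sum_mul_sum]
            simp only [sum_add_distrib, mul_sum]
            refine congrArg₂ (· + ·) (sum_congr rfl fun q hq => ?_) rfl
            rw [sum_ite_eq, if_pos hq]
        _ ≤ _ := by nlinarith
    have hCE := sq_sum_measureReal_le (μ := (volume : Measure UnitAddCircle)) J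
      (measurableSet_dsSet ψ)
    have hsq := pow_le_pow_left₀ (mul_nonneg hκ.le (by linarith)) hfirst 2
    have hU : 0 ≤ (volume : Measure UnitAddCircle).real (⋃ q ∈ J, dsSet ψ q) := measureReal_nonneg
    have hS1 : 0 < S ^ 2 := by nlinarith
    rw [div_le_iff₀ (by norm_num)]
    refine le_of_mul_le_mul_right ?_ hS1
    nlinarith [mul_le_mul_of_nonneg_left hsecond hU]
  refine (ENNReal.ofReal_pos.2 (show 0 < κ ^ 2 / 40 by positivity)).ne' (le_antisymm
    (hlow.trans (le_of_eq ?_)) zero_le)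
  refine measure_mono_null (fun x hx => ?_) (ae_iff.1 hnull)
  simp only [Set.mem_ofPred_eq, not_not, addWellApproximable]
  rw [← Nat.cofinite_eq_atTop, cofinite.limsup_set_eq] at hx
  rw [← Nat.cofinite_eq_atTop, cofinite.blimsup_set_eq]
  refine Set.Infinite.mono (fun q hq => ?_) (hx.sdiff (Set.finite_singleton 0))
  simp only [Set.mem_sdiff, Set.mem_ofPred_eq, Set.mem_singleton_iff] at hq
  exact ⟨Nat.pos_of_ne_zero hq.2, dsSet_eq_approxAddOrderOf (Nat.pos_of_ne_zero hq.2) ▸ hq.1⟩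

/-- **The theorem of Duffin and Schaeffer.** -/
theorem duffin_schaeffer_real {ψ : ℕ → ℝ} (h0 : ∀ q, 0 ≤ ψ q) (h1 : ∀ q, ψ q ≤ 1 / 2)
    (hdiv : Tendsto (fun N => ∑ q ∈ range N, ψ q) atTop atTop) {κ : ℝ} (hκ : 0 < κ)
    (hratio : ∃ᶠ N : ℕ in atTop,
      κ * ∑ q ∈ range N, ψ q ≤ ∑ q ∈ range N, (q.totient : ℝ) * ψ q / q) :
    ∀ᵐ x : ℝ, {q : ℕ | ∃ p : ℤ, Int.gcd p q = 1 ∧ |x - p / q| < ψ q / q}.Infinite := by
  filter_upwards [ae_real_of_ae_circle (ae_mem_addWellApproximable h0 h1 hdiv hκ hratio)] with x hx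
  rw [UnitAddCircle.mem_addWellApproximable_iff] at hx
  refine hx.mono fun q hq => ?_
  obtain ⟨m, hm, hg, hlt⟩ := hq
  rw [← AddCircle.coe_sub, AddCircle.norm_eq] at hlt
  simp only [one_mul, mul_one, inv_one] at hlt
  obtain ⟨z, hz⟩ : ∃ z : ℤ, z = round (x - (m : ℝ) / q) := ⟨_, rfl⟩
  rw [← hz] at hlt
  refine ⟨m + z * q, ?_, ?_⟩
  · rw [Int.gcd_add_mul_right_left]
    exact hg
  · refine lt_of_eq_of_lt (congrArg abs ?_) hlt
    have hq : (q : ℝ) ≠ 0 := Nat.cast_ne_zero.2 (by omega)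
    push_cast
    field_simp
    ring

/-- `φ q / q ≥ 1 - ∑_{p ∣ q} 1 / p`. -/
theorem one_sub_sum_le_totient_div {q : ℕ} (hq : 0 < q) :
    1 - ∑ p ∈ q.primeFactors, (p : ℝ)⁻¹ ≤ (q.totient : ℝ) / q := by
  have h : ((q.totient : ℕ) : ℝ) = q * ∏ p ∈ q.primeFactors, (1 - (p : ℝ)⁻¹) := by
    have := congrArg ((↑) : ℚ → ℝ) (Nat.totient_eq_mul_prod_factors q)
    push_cast at this
    exact this
  rw [h, mul_div_cancel_left₀ _ (by positivity)]
  have key : ∀ s : Finset ℕ, 1 - ∑ p ∈ s, (p : ℝ)⁻¹ ≤ ∏ p ∈ s, (1 - (p : ℝ)⁻¹) := fun s => by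
    induction s using Finset.induction_on with
    | empty => simp
    | insert a t ha ih =>
      rw [sum_insert ha, prod_insert ha]
      have hinv : ∀ n : ℕ, 0 ≤ (n : ℝ)⁻¹ ∧ (n : ℝ)⁻¹ ≤ 1 := fun n =>
        ⟨by positivity, Nat.cast_inv_le_one n⟩
      have hle : (1 - (a : ℝ)⁻¹) * (1 - ∑ p ∈ t, (p : ℝ)⁻¹) ≤
          (1 - (a : ℝ)⁻¹) * ∏ p ∈ t, (1 - (p : ℝ)⁻¹) :=
        mul_le_mul_of_nonneg_left ih (by linarith [(hinv a).2])
      have : 0 ≤ ∑ p ∈ t, (p : ℝ)⁻¹ := sum_nonneg fun n _ => (hinv n).1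
      nlinarith [(hinv a).1]
  exact key _

/-- `∑_{q ≤ n} φ q / q ≥ n / 4`. -/
theorem quarter_le_sum_totient_div (n : ℕ) :
    (n : ℝ) / 4 ≤ ∑ q ∈ Icc 1 n, (q.totient : ℝ) / q := by
  refine le_trans ?_ (sum_le_sum fun q hq =>
    one_sub_sum_le_totient_div (mem_Icc.1 hq).1)
  rw [sum_sub_distrib, sum_const, Nat.card_Icc, Nat.add_sub_cancel, nsmul_eq_mul, mul_one]
  have hsum : ∑ q ∈ Icc 1 n, ∑ p ∈ q.primeFactors, (p : ℝ)⁻¹ ≤
      ∑ p ∈ Icc 2 n, (n : ℝ) * ((p : ℝ) ^ 2)⁻¹ := by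
    calc ∑ q ∈ Icc 1 n, ∑ p ∈ q.primeFactors, (p : ℝ)⁻¹
        ≤ ∑ q ∈ Icc 1 n, ∑ p ∈ (Icc 2 n).filter (· ∣ q), (p : ℝ)⁻¹ := by
          refine sum_le_sum fun q hq => sum_le_sum_of_subset_of_nonneg (fun p hp => ?_)
            fun p _ _ => by positivity
          rw [mem_Icc] at hq
          have h2 := (Nat.prime_of_mem_primeFactors hp).two_le
          have hd := Nat.dvd_of_mem_primeFactors hp
          exact mem_filter.2 ⟨mem_Icc.2 ⟨h2, (Nat.le_of_dvd hq.1 hd).trans hq.2⟩, hd⟩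
      _ = ∑ p ∈ Icc 2 n, ((n / p : ℕ) : ℝ) * (p : ℝ)⁻¹ := by
          simp only [sum_filter]
          rw [sum_comm]
          refine sum_congr rfl fun p _ => ?_
          rw [← sum_filter, sum_const, nsmul_eq_mul, ← Nat.Ioc_filter_dvd_card_eq_div n p]
          rfl
      _ ≤ _ := by
          refine sum_le_sum fun p _ => ?_
          rw [sq, mul_inv, ← mul_assoc, ← div_eq_mul_inv (n : ℝ)]
          exact mul_le_mul_of_nonneg_right Nat.cast_div_le (by positivity)
  have hsq : ∀ m : ℕ, ∑ p ∈ Icc 2 (m + 2), ((p : ℝ) ^ 2)⁻¹ ≤ 3 / 4 - 1 / (m + 2) := by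
    intro m
    induction m with
    | zero => norm_num
    | succ m ih =>
      rw [show m + 1 + 2 = (m + 2) + 1 by ring, sum_Icc_succ_top (by omega)]
      push_cast
      have e : ((((m : ℝ) + 2) + 1) ^ 2)⁻¹ ≤ 1 / ((m : ℝ) + 2) - 1 / ((m : ℝ) + 1 + 2) := by
        rw [div_sub_div _ _ (by positivity) (by positivity), ← one_div,
          div_le_div_iff₀ (by positivity) (by positivity)]
        nlinarith [(Nat.cast_nonneg m : (0 : ℝ) ≤ m)]
      linarith
  rw [← mul_sum] at hsum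
  have hb : ∑ p ∈ Icc 2 n, ((p : ℝ) ^ 2)⁻¹ ≤ 3 / 4 := by
    refine le_trans (sum_le_sum_of_subset_of_nonneg (Icc_subset_Icc le_rfl (Nat.le_add_right n 2))
      fun p _ _ => by positivity) ((hsq n).trans ?_)
    have : (0 : ℝ) ≤ 1 / ((n : ℝ) + 2) := by positivity
    linarith
  have := mul_le_mul_of_nonneg_left hb (Nat.cast_nonneg n : (0 : ℝ) ≤ n)
  linarith

/-- Partial summation for an antitone weight. -/
theorem quarter_mul_sum_le {ψ : ℕ → ℝ} (h0 : ∀ q, 0 ≤ ψ q)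
    (hmono : ∀ q, 1 ≤ q → ψ (q + 1) ≤ ψ q) (n : ℕ) :
    (∑ q ∈ Icc 1 n, ψ q) / 4 ≤ ∑ q ∈ Icc 1 n, (q.totient : ℝ) * ψ q / q := by
  have key : ∀ n : ℕ, 1 ≤ n → ψ n * (∑ q ∈ Icc 1 n, ((q.totient : ℝ) / q - 1 / 4)) ≤
      ∑ q ∈ Icc 1 n, ((q.totient : ℝ) / q - 1 / 4) * ψ q := by
    intro n hn
    induction n, hn using Nat.le_induction with
    | base => simp [mul_comm]
    | succ n hn ih =>
      rw [sum_Icc_succ_top (by omega), sum_Icc_succ_top (by omega), mul_add]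
      have hA : 0 ≤ ∑ q ∈ Icc 1 n, ((q.totient : ℝ) / q - 1 / 4) := by
        rw [sum_sub_distrib, sum_const, Nat.card_Icc, Nat.add_sub_cancel, nsmul_eq_mul]
        linarith [quarter_le_sum_totient_div n]
      linarith [mul_le_mul_of_nonneg_right (hmono n hn) hA]
  rcases Nat.eq_zero_or_pos n with rfl | hn
  · simp
  have h := key n hn
  have hA : 0 ≤ ψ n * ∑ q ∈ Icc 1 n, ((q.totient : ℝ) / q - 1 / 4) := by
    refine mul_nonneg (h0 n) ?_
    rw [sum_sub_distrib, sum_const, Nat.card_Icc, Nat.add_sub_cancel, nsmul_eq_mul]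
    linarith [quarter_le_sum_totient_div n]
  have e : ∑ q ∈ Icc 1 n, ((q.totient : ℝ) / q - 1 / 4) * ψ q =
      ∑ q ∈ Icc 1 n, (q.totient : ℝ) * ψ q / q - (∑ q ∈ Icc 1 n, ψ q) / 4 := by
    rw [sum_div, ← sum_sub_distrib]
    exact sum_congr rfl fun q _ => by ring
  linarith

/-- **Khintchine**, divergence. -/
theorem khintchine_divergence_real {ψ : ℕ → ℝ} (h0 : ∀ q, 0 ≤ ψ q)
    (hmono : ∀ q r, 1 ≤ q → q ≤ r → ψ r ≤ ψ q) (hdiv : ¬ Summable ψ) :
    ∀ᵐ x : ℝ, {q : ℕ | ∃ p : ℤ, Int.gcd p q = 1 ∧ |x - p / q| < ψ q / q}.Infinite := by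
  obtain ⟨f, hf⟩ : ∃ f : ℕ → ℝ, f = fun q => if q = 0 then 0 else min (ψ q) (1 / 2) := ⟨_, rfl⟩
  have hf0 : ∀ q, 0 ≤ f q := fun q => by
    simp only [hf]
    split_ifs
    · exact le_rfl
    · exact le_min (h0 q) (by norm_num)
  have hf1 : ∀ q, f q ≤ 1 / 2 := fun q => by
    simp only [hf]
    split_ifs
    · norm_num
    · exact min_le_right _ _
  have hfn : ¬ Summable f := by
    intro hs
    refine hdiv (Summable.of_norm_bounded_eventually hs ?_)
    rw [Nat.cofinite_eq_atTop]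
    filter_upwards [hs.tendsto_atTop_zero.eventually_lt_const (show (0 : ℝ) < 1 / 2 by norm_num),
      eventually_ge_atTop 1] with q hq hq1
    simp only [hf, if_neg (show q ≠ 0 by omega)] at hq ⊢
    rw [Real.norm_eq_abs, abs_of_nonneg (h0 q)]
    rcases le_total (ψ q) (1 / 2) with h | h
    · rw [min_eq_left h]
    · rw [min_eq_right h] at hq
      exact absurd hq (lt_irrefl _)
  have hratio : ∀ N : ℕ, 1 / 4 * ∑ q ∈ range N, f q ≤
      ∑ q ∈ range N, (q.totient : ℝ) * f q / q := by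
    intro N
    rcases Nat.eq_zero_or_pos N with rfl | hN
    · simp
    obtain ⟨M, rfl⟩ := Nat.exists_eq_add_of_le (show 1 ≤ N by omega)
    have hsub : ∀ g : ℕ → ℝ, g 0 = 0 → ∑ q ∈ range (1 + M), g q = ∑ q ∈ Icc 1 M, g q := by
      intro g hg
      rw [range_eq_Ico, sum_eq_sum_Ico_succ_bot (by omega), hg, zero_add, zero_add, add_comm 1 M]
      rfl
    rw [hsub _ (by simp [hf]), hsub _ (by simp)]
    have hm : ∀ q, 1 ≤ q → f (q + 1) ≤ f q := fun q hq => by
      simp only [hf, if_neg (show q ≠ 0 by omega), if_neg (show q + 1 ≠ 0 by omega)]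
      exact min_le_min (hmono q _ hq (Nat.le_succ q)) le_rfl
    linarith [quarter_mul_sum_le hf0 hm M]
  have h := duffin_schaeffer_real hf0 hf1
    ((not_summable_iff_tendsto_nat_atTop_of_nonneg hf0).1 hfn) (show (0 : ℝ) < 1 / 4 by norm_num)
    (Frequently.of_forall hratio)
  filter_upwards [h] with x hx
  refine hx.mono fun q hq => ?_
  obtain ⟨p, hp, hlt⟩ := hq
  refine ⟨p, hp, hlt.trans_le ?_⟩
  refine div_le_div_of_nonneg_right ?_ (Nat.cast_nonneg q)
  simp only [hf]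
  split_ifs
  · exact h0 q
  · exact min_le_left _ _

/-- **Khintchine**, convergence. -/
theorem khintchine_convergence_real {ψ : ℕ → ℝ} (h0 : ∀ q, 0 ≤ ψ q) (hs : Summable ψ) :
    ∀ᵐ x : ℝ, {a : ℤ × ℕ | 0 < a.2 ∧ |x - a.1 / a.2| < ψ a.2 / a.2}.Finite := by
  obtain ⟨F, hF⟩ : ∃ F : ℕ → Set UnitAddCircle,
      F = fun q => ⋃ m ∈ range q, ball (frac q m) (ψ q / q) := ⟨_, rfl⟩
  have hμ : ∀ q, (volume : Measure UnitAddCircle) (F q) ≤ ENNReal.ofReal (2 * ψ q) := by
    intro q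
    rw [← ofReal_measureReal (measure_ne_top _ _)]
    refine ENNReal.ofReal_le_ofReal ?_
    simp only [hF]
    refine (measureReal_biUnion_finset_le _ _).trans ?_
    calc ∑ m ∈ range q, (volume : Measure UnitAddCircle).real (ball (frac q m) (ψ q / q))
        ≤ ∑ _m ∈ range q, 2 * (ψ q / q) := by
          refine sum_le_sum fun m _ => ?_
          rw [measureReal_ball]
          exact max_le (mul_nonneg two_pos.le (div_nonneg (h0 q) (Nat.cast_nonneg q)))
            (min_le_right _ _)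
      _ ≤ 2 * ψ q := by
          rw [sum_const, card_range, nsmul_eq_mul]
          rcases Nat.eq_zero_or_pos q with rfl | hq
          · simpa using h0 0
          · exact le_of_eq (by field_simp)
  have hBC : ∀ᵐ y ∂(volume : Measure UnitAddCircle), ∀ᶠ q in atTop, y ∉ F q :=
    ae_eventually_notMem (ne_top_of_le_ne_top
      (ENNReal.ofReal_tsum_of_nonneg (fun q => by linarith [h0 q]) (hs.mul_left 2) ▸
        ENNReal.ofReal_ne_top) (ENNReal.tsum_le_tsum hμ))
  filter_upwards [ae_real_of_ae_circle hBC] with x hx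
  obtain ⟨Q, hQ⟩ := eventually_atTop.1 hx
  have hsub : {a : ℤ × ℕ | 0 < a.2 ∧ |x - a.1 / a.2| < ψ a.2 / a.2} ⊆
      ⋃ q ∈ range Q, (Set.Icc ⌊x * q - ψ q⌋ ⌈x * q + ψ q⌉) ×ˢ ({q} : Set ℕ) := by
    rintro ⟨p, q⟩ ⟨hq, hlt⟩
    simp only at hq hlt
    have hq' : (0 : ℝ) < q := by exact_mod_cast hq
    have hqQ : q < Q := by
      by_contra hc
      refine hQ q (not_lt.1 hc) ?_
      simp only [hF, Set.mem_iUnion]
      refine ⟨(p % q).toNat, mem_range.2 ?_, ?_⟩
      · have := Int.emod_lt_of_pos p (show (0 : ℤ) < q by omega)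
        omega
      · rw [mem_ball, dist_eq_norm, frac, ← AddCircle.coe_sub]
        have e : ((x - ((p % q).toNat : ℕ) / (q : ℝ) : ℝ) : UnitAddCircle) =
            ((x - p / q : ℝ) : UnitAddCircle) := by
          have hmod : (((p % q).toNat : ℕ) : ℝ) = (p : ℝ) - q * ((p / q : ℤ) : ℝ) := by
            have h2 : (((p % q).toNat : ℕ) : ℤ) = p - q * (p / q) := by
              rw [Int.toNat_of_nonneg (Int.emod_nonneg p (by omega))]
              exact Int.emod_def p q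
            exact_mod_cast h2
          rw [← sub_eq_zero, ← AddCircle.coe_sub, hmod, AddCircle.coe_eq_zero_iff]
          refine ⟨p / q, ?_⟩
          rw [zsmul_one]
          field_simp
          ring
        rw [e]
        exact (norm_coe_le_abs _).trans_lt hlt
    refine Set.mem_biUnion (mem_range.2 hqQ) ⟨?_, rfl⟩
    rw [abs_lt, sub_lt_iff_lt_add, lt_sub_iff_add_lt, ← neg_div, ← add_div, ← add_div,
      div_lt_iff₀ hq', lt_div_iff₀ hq'] at hlt
    constructor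
    · exact_mod_cast (Int.floor_le _).trans (by linarith : x * q - ψ q ≤ p)
    · exact_mod_cast (by linarith : (p : ℝ) ≤ x * q + ψ q).trans (Int.le_ceil _)
  exact ((Set.Finite.biUnion (range Q).finite_toSet fun q _ =>
    (Set.finite_Icc _ _).prod (Set.finite_singleton q))).subset hsub

end FA.Khintchine
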