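import Mathlib.MeasureTheory.Integral.Bochner.Set
import Mathlib.Tactic

/-!
# The second moment lemma

`(∑ μ A_i) ^ 2 ≤ μ (⋃ A_i) ∑ ∑ μ (A_i ∩ A_j)`, and a lower bound for `limsup A_n` from it.
-/

set_option autoImplicit false

noncomputable section

namespace FA.Khintchine

open MeasureTheory Finset Filter

variable {α : Type*} [MeasurableSpace α] {μ : Measure α} [IsFiniteMeasure μ]

/-- **The inequality of Chung and Erdős.** -/
theorem sq_sum_measureReal_le {ι : Type*} (s : Finset ι) {A : ι → Set α}
    (hA : ∀ i, MeasurableSet (A i)) :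
    (∑ i ∈ s, μ.real (A i)) ^ 2 ≤
      μ.real (⋃ i ∈ s, A i) * ∑ i ∈ s, ∑ j ∈ s, μ.real (A i ∩ A j) := by
  classical
  obtain ⟨U, hU⟩ : ∃ U, U = ⋃ i ∈ s, A i := ⟨_, rfl⟩
  have hUm : MeasurableSet U := hU ▸ Finset.measurableSet_biUnion s fun i _ => hA i
  obtain ⟨S1, hS1⟩ : ∃ S1, S1 = ∑ i ∈ s, μ.real (A i) := ⟨_, rfl⟩
  obtain ⟨S2, hS2⟩ : ∃ S2, S2 = ∑ i ∈ s, ∑ j ∈ s, μ.real (A i ∩ A j) := ⟨_, rfl⟩
  rw [← hU, ← hS1, ← hS2]
  have hint : ∀ {B : Set α}, MeasurableSet B → Integrable (B.indicator fun _ => (1 : ℝ)) μ :=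
    fun hB => (integrable_const 1).indicator hB
  have hval : ∀ {B : Set α}, MeasurableSet B →
      ∫ x, B.indicator (fun _ => (1 : ℝ)) x ∂μ = μ.real B := fun hB => by
    rw [integral_indicator_const _ hB, smul_eq_mul, mul_one]
  have hkey : ∀ t : ℝ, 0 ≤ S2 - 2 * t * S1 + t ^ 2 * μ.real U := by
    intro t
    have h : S2 - 2 * t * S1 + t ^ 2 * μ.real U = ∫ x,
        (∑ i ∈ s, (A i).indicator (fun _ => (1 : ℝ)) x -
          t * U.indicator (fun _ => 1) x) ^ 2 ∂μ := by
      have e : ∀ x,
          (∑ i ∈ s, (A i).indicator (fun _ => (1 : ℝ)) x - t * U.indicator (fun _ => 1) x) ^ 2 =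
          ((∑ i ∈ s, ∑ j ∈ s, (A i ∩ A j).indicator (fun _ => (1 : ℝ)) x) -
            2 * t * ∑ i ∈ s, (A i).indicator (fun _ => 1) x) +
            t ^ 2 * U.indicator (fun _ => 1) x := by
        intro x
        by_cases hx : x ∈ U
        · have hh : ∀ i j, (A i ∩ A j).indicator (fun _ => (1 : ℝ)) x =
              (A i).indicator (fun _ => 1) x * (A j).indicator (fun _ => 1) x := fun i j => by
            by_cases h1 : x ∈ A i <;> by_cases h2 : x ∈ A j <;> simp [h1, h2]
          simp only [hh, ← Finset.mul_sum, ← Finset.sum_mul, Set.indicator_of_mem hx]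
          ring
        · have h0 : ∀ i ∈ s, x ∉ A i := fun i hi h =>
            hx (hU ▸ Set.mem_biUnion hi h)
          rw [Set.indicator_of_notMem hx,
            sum_eq_zero fun i hi => Set.indicator_of_notMem (h0 i hi) _,
            sum_eq_zero fun i hi => sum_eq_zero fun j _ =>
              Set.indicator_of_notMem (fun h => h0 i hi h.1) _]
          ring
      rw [integral_congr_ae (Eventually.of_forall e), integral_add, integral_sub,
        integral_finsetSum, integral_const_mul, integral_finsetSum, integral_const_mul, hval hUm,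
        hS1, hS2]
      · congr 2
        · exact sum_congr rfl fun i _ => by
            rw [integral_finsetSum _ fun j _ => hint ((hA i).inter (hA j))]
            exact sum_congr rfl fun j _ => (hval ((hA i).inter (hA j))).symm
        · congr 1
          exact sum_congr rfl fun i _ => (hval (hA i)).symm
      · exact fun i _ => hint (hA i)
      · exact fun i _ => integrable_finsetSum _ fun j _ => hint ((hA i).inter (hA j))
      · exact integrable_finsetSum _ fun i _ =>
          integrable_finsetSum _ fun j _ => hint ((hA i).inter (hA j))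
      · exact (integrable_finsetSum _ fun i _ => hint (hA i)).const_mul _
      · exact (integrable_finsetSum _ fun i _ => integrable_finsetSum _ fun j _ =>
          hint ((hA i).inter (hA j))).sub
          ((integrable_finsetSum _ fun i _ => hint (hA i)).const_mul _)
      · exact (hint hUm).const_mul _
    rw [h]
    exact integral_nonneg fun x => sq_nonneg _
  have hU0 : 0 ≤ μ.real U := measureReal_nonneg
  rcases hU0.eq_or_lt with h0 | hpos
  · have : S1 = 0 := hS1 ▸ sum_eq_zero fun i hi => le_antisymm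
      (h0 ▸ measureReal_mono (hU ▸ Set.subset_biUnion_of_mem (u := A) hi)) measureReal_nonneg
    rw [this, ← h0]
    simp
  · have h := hkey (S1 / μ.real U)
    field_simp at h
    nlinarith

/-- If every tail has union of measure at least `c`, so does the limit superior. -/
theorem ofReal_le_measure_limsup {A : ℕ → Set α} (hA : ∀ n, MeasurableSet (A n)) {c : ℝ}
    (h : ∀ n₀, ∃ s : Finset ℕ, (∀ n ∈ s, n₀ ≤ n) ∧ c ≤ μ.real (⋃ n ∈ s, A n)) :
    ENNReal.ofReal c ≤ μ (limsup A atTop) := by
  rw [limsup_eq_iInf_iSup_of_nat]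
  simp only [Set.iInf_eq_iInter, Set.iSup_eq_iUnion, ge_iff_le]
  have hanti : Antitone fun n₀ => ⋃ n, ⋃ (_ : n₀ ≤ n), A n := fun a b hab =>
    Set.biUnion_subset_biUnion_left fun n (hn : b ≤ n) => hab.trans hn
  rw [hanti.measure_iInter
    (fun n₀ => (MeasurableSet.iUnion fun n => MeasurableSet.iUnion fun _ => hA n).nullMeasurableSet)
    ⟨0, measure_ne_top _ _⟩]
  refine le_iInf fun n₀ => ?_
  obtain ⟨s, hs, hc⟩ := h n₀
  refine le_trans (ENNReal.ofReal_le_ofReal hc) ?_
  rw [ofReal_measureReal (measure_ne_top _ _)]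
  exact measure_mono (Set.biUnion_subset_biUnion_left hs)

end FA.Khintchine
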